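import Mathlib

/-!
# Program E (S58), node (TOR), part 1: the generic fibre of multiplication by `n` in `x`-coordinates

`fibPoly W n u = Φ_n - u ΨSq_n` has degree `n ^ 2`; the Wronskian `Φ_n' ΨSq_n - Φ_n ΨSq_n'` has
the coefficient `n ^ 2` in degree `2 (n ^ 2 - 1)`, hence is nonzero as soon as `n` is invertible;
over an algebraically closed field, `fibPoly W n u` is separable for all but finitely many `u`.
-/

set_option autoImplicit false

namespace Fermat.Agent.EC.Tor.Poly

open Polynomial WeierstrassCurve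

variable {K : Type*} [Field K] (W : WeierstrassCurve K)

/-- The fibre polynomial of `x ∘ [n]` over `u`. -/
noncomputable def fibPoly (n : ℕ) (u : K) : K[X] := W.Φ (n : ℤ) - C u * W.ΨSq (n : ℤ)

/-- The Wronskian of `(Φ_n, ΨSq_n)`. -/
noncomputable def wronskian (n : ℕ) : K[X] :=
  derivative (W.Φ (n : ℤ)) * W.ΨSq (n : ℤ) - W.Φ (n : ℤ) * derivative (W.ΨSq (n : ℤ))

theorem natDegree_fibPoly {n : ℕ} (hn : 0 < n) (u : K) : (fibPoly W n u).natDegree = n ^ 2 := by
  have h1 : (W.Φ (n : ℤ)).natDegree = n ^ 2 := by rw [natDegree_Φ, Int.natAbs_natCast]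
  have h2 : (C u * W.ΨSq (n : ℤ)).natDegree < (W.Φ (n : ℤ)).natDegree := by
    rw [h1]
    calc (C u * W.ΨSq (n : ℤ)).natDegree ≤ (W.ΨSq (n : ℤ)).natDegree := natDegree_C_mul_le _ _
      _ ≤ n ^ 2 - 1 := by simpa using W.natDegree_ΨSq_le (n : ℤ)
      _ < n ^ 2 := Nat.sub_lt (Nat.pow_pos hn) one_pos
  rw [fibPoly, natDegree_sub_eq_left_of_natDegree_lt h2, h1]

theorem fibPoly_ne_zero {n : ℕ} (hn : 0 < n) (u : K) : fibPoly W n u ≠ 0 := by
  intro h
  have := natDegree_fibPoly W hn u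
  rw [h, natDegree_zero] at this
  exact (Nat.pow_pos hn).ne this

theorem eval_fibPoly (n : ℕ) (u x : K) :
    (fibPoly W n u).eval x = (W.Φ (n : ℤ)).eval x - u * (W.ΨSq (n : ℤ)).eval x := by
  rw [fibPoly, eval_sub, eval_mul, eval_C]

/-- The coefficient of the Wronskian in degree `2 (n ^ 2 - 1)` is `n ^ 2`. -/
theorem coeff_wronskian {n : ℕ} (hn : 0 < n) :
    (wronskian W n).coeff (2 * (n ^ 2 - 1)) = (n : K) ^ 2 := by
  obtain ⟨m, hm⟩ : ∃ m, n ^ 2 = m + 1 := ⟨n ^ 2 - 1, (Nat.sub_add_cancel (Nat.pow_pos hn)).symm⟩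
  have hΦd : (W.Φ (n : ℤ)).natDegree ≤ m + 1 := by
    have := W.natDegree_Φ_le (n : ℤ); rwa [Int.natAbs_natCast, hm] at this
  have hΦc : (W.Φ (n : ℤ)).coeff (m + 1) = 1 := by
    have := W.coeff_Φ (n : ℤ); rwa [Int.natAbs_natCast, hm] at this
  have hΨd : (W.ΨSq (n : ℤ)).natDegree ≤ m := by
    have := W.natDegree_ΨSq_le (n : ℤ); rwa [Int.natAbs_natCast, hm, Nat.add_sub_cancel] at this
  have hΨc : (W.ΨSq (n : ℤ)).coeff m = (n : K) ^ 2 := by
    have := W.coeff_ΨSq (n : ℤ)
    rw [Int.natAbs_natCast, hm, Nat.add_sub_cancel] at this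
    rw [this]; push_cast; rfl
  have hΦ'd : (derivative (W.Φ (n : ℤ))).natDegree ≤ m :=
    (natDegree_derivative_le _).trans (by omega)
  have hΦ'c : (derivative (W.Φ (n : ℤ))).coeff m = (m : K) + 1 := by
    rw [coeff_derivative, hΦc, one_mul]
  have e : 2 * (n ^ 2 - 1) = m + m := by omega
  rw [e, wronskian, coeff_sub, coeff_mul_add_eq_of_natDegree_le hΦ'd hΨd, hΦ'c, hΨc]
  rcases Nat.eq_zero_or_pos m with h0 | hpos
  · subst h0
    have hder : derivative (W.ΨSq (n : ℤ)) = 0 := by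
      rw [eq_C_of_natDegree_le_zero hΨd, derivative_C]
    rw [hder, mul_zero, coeff_zero]
    simp
  · obtain ⟨m', rfl⟩ : ∃ m', m = m' + 1 := ⟨m - 1, by omega⟩
    have hΨ'd : (derivative (W.ΨSq (n : ℤ))).natDegree ≤ m' :=
      (natDegree_derivative_le _).trans (by omega)
    have hΨ'c : (derivative (W.ΨSq (n : ℤ))).coeff m' = (n : K) ^ 2 * ((m' : K) + 1) := by
      rw [coeff_derivative, hΨc]
    have e2 : m' + 1 + (m' + 1) = (m' + 1 + 1) + m' := by omega
    rw [e2, coeff_mul_add_eq_of_natDegree_le hΦd hΨ'd, hΦc, hΨ'c]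
    push_cast
    ring

theorem wronskian_ne_zero {n : ℕ} (hn : (n : K) ≠ 0) : wronskian W n ≠ 0 := by
  have hn0 : 0 < n := Nat.pos_of_ne_zero (by rintro rfl; simp at hn)
  intro h
  have := coeff_wronskian W hn0
  rw [h, coeff_zero] at this
  exact pow_ne_zero 2 hn this.symm

/-- A common root of `fibPoly` and its derivative is a root of the Wronskian. -/
theorem eval_wronskian_eq_zero {n : ℕ} {u x : K} (h0 : (fibPoly W n u).eval x = 0)
    (h1 : (derivative (fibPoly W n u)).eval x = 0) : (wronskian W n).eval x = 0 := by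
  have e0 : (W.Φ (n : ℤ)).eval x = u * (W.ΨSq (n : ℤ)).eval x := by
    rw [eval_fibPoly] at h0; linear_combination h0
  have e1 : (derivative (W.Φ (n : ℤ))).eval x = u * (derivative (W.ΨSq (n : ℤ))).eval x := by
    simp only [fibPoly, derivative_sub, derivative_mul, derivative_C, zero_mul, zero_add, eval_sub,
      eval_mul, eval_C] at h1
    linear_combination h1
  simp only [wronskian, eval_sub, eval_mul, e0, e1]
  ring

variable [IsAlgClosed K]

/-- The finite set of bad values `u`. -/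
noncomputable def badSet [DecidableEq K] (n : ℕ) : Finset K :=
  (wronskian W n).roots.toFinset.image
    fun x => (W.Φ (n : ℤ)).eval x / (W.ΨSq (n : ℤ)).eval x

/-- Outside the bad set, the fibre polynomial is separable (given that `Φ_n`, `ΨSq_n` have no
common root). -/
theorem separable_fibPoly [DecidableEq K] {n : ℕ} (hn : (n : K) ≠ 0)
    (hcop : ∀ x : K, (W.ΨSq (n : ℤ)).eval x = 0 → (W.Φ (n : ℤ)).eval x ≠ 0) {u : K}
    (hu : u ∉ badSet W n) : (fibPoly W n u).Separable := by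
  rw [Polynomial.separable_def, Polynomial.isCoprime_iff_aeval_ne_zero_of_isAlgClosed (k := K) K]
  intro x
  by_contra hcon
  push Not at hcon
  obtain ⟨h0, h1⟩ := hcon
  rw [coe_aeval_eq_eval] at h0 h1
  have hw := eval_wronskian_eq_zero W h0 h1
  have hΨ : (W.ΨSq (n : ℤ)).eval x ≠ 0 := by
    intro hΨ
    have : (W.Φ (n : ℤ)).eval x = 0 := by
      rw [eval_fibPoly, hΨ, mul_zero, sub_zero] at h0; exact h0
    exact hcop x hΨ this
  apply hu
  rw [badSet, Finset.mem_image]
  refine ⟨x, ?_, ?_⟩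
  · rw [Multiset.mem_toFinset, mem_roots (wronskian_ne_zero W hn)]
    exact hw
  · rw [eval_fibPoly] at h0
    field_simp
    linear_combination h0

end Fermat.Agent.EC.Tor.Poly
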