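import Mathlib
import Fermat.Agent.S13.AddSubIdCoord
import Fermat.Agent.EC.Tor.Poly

/-!
# Program E (S58), node (TOR), part 2: `#E[n] = n ^ 2` over an algebraically closed field in which `n` is invertible

The generic fibre of `[n]` : for `Q = (u, v)` with `Q ≠ -Q` and `u` outside the finite bad set,
`P ↦ x(P)` is a bijection from `{P | n • P = Q}` onto the `n ^ 2` distinct roots of
`Φ_n - u ΨSq_n`.
-/

set_option autoImplicit false

namespace Fermat.Agent.EC.Tor.Card

open Polynomial WeierstrassCurve WeierstrassCurve.Affine WeierstrassCurve.Affine.Point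
open Fermat.Agent.S13 Fermat.Agent.EC.Tor.Poly

variable {K : Type*} [Field K] [DecidableEq K] (W : Affine K)

/-- `x`-coordinate (`0` at infinity). -/
def xC : W.Point → K
  | .zero => 0
  | .some x _ _ => x

omit [DecidableEq K] in
theorem xC_some {x y : K} (h : W.Nonsingular x y) : xC W (Point.some x y h) = x := rfl

omit [DecidableEq K] in
theorem xC_neg (P : W.Point) : xC W (-P) = xC W P := by
  rcases P with _ | ⟨x, y, h⟩
  · rfl
  · rw [Point.neg_some]; rfl

omit [DecidableEq K] in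
theorem eq_or_eq_neg_of_xC_eq {T T' : W.Point} (hT : T ≠ 0) (hT' : T' ≠ 0)
    (h : xC W T' = xC W T) : T' = T ∨ T' = -T := by
  rcases T with _ | ⟨x, y, hxy⟩
  · exact absurd rfl hT
  rcases T' with _ | ⟨x', y', hxy'⟩
  · exact absurd rfl hT'
  simp only [xC] at h
  subst h
  rcases Y_eq_of_X_eq hxy'.1 hxy.1 rfl with hy | hy
  · left; subst hy; rfl
  · right
    rw [Point.neg_some]
    subst hy; rfl

omit [DecidableEq K] in
/-- Every `x` carries a solution of the Weierstrass equation. -/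
theorem exists_equation [IsAlgClosed K] (x : K) : ∃ y, W.Equation x y := by
  set p : K[X] := X ^ 2 + C (W.a₁ * x + W.a₃) * X - C (x ^ 3 + W.a₂ * x ^ 2 + W.a₄ * x + W.a₆)
    with hp
  have hdeg : p.natDegree = 2 := by rw [hp]; compute_degree!
  have hp0 : p ≠ 0 := by
    intro h; rw [h, natDegree_zero] at hdeg; exact absurd hdeg (by norm_num)
  obtain ⟨y, hy⟩ := IsAlgClosed.exists_root p (by rw [degree_eq_natDegree hp0, hdeg]; norm_num)
  refine ⟨y, ?_⟩
  rw [equation_iff]
  rw [IsRoot.def, hp] at hy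
  simp only [eval_sub, eval_add, eval_pow, eval_X, eval_mul, eval_C] at hy
  linear_combination hy

/-- `Φ_n` and `ΨSq_n` have no common root. -/
theorem eval_Φ_ne_zero_of_eval_ΨSq [IsAlgClosed K] (hΔ : W.Δ ≠ 0) (n : ℤ) (x : K)
    (hΨ : (W.ΨSq n).eval x = 0) : (W.Φ n).eval x ≠ 0 := by
  obtain ⟨y, heq⟩ := exists_equation W x
  have hns : W.Nonsingular x y := (W.equation_iff_nonsingular_of_Δ_ne_zero hΔ).mp heq
  have h0 : n • Point.some x y hns = 0 :=
    (AddSub.eval_ΨSq_eq_zero_iff W (addSubIdentities_of_star W) hns n).mp hΨ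
  exact AddSub.eval_Φ_ne_zero_of_smul_eq_zero W (addSubIdentities_of_star W) hns n h0

omit [DecidableEq K] in
/-- Every `x` is the `x`-coordinate of a point. -/
theorem exists_point_xC [IsAlgClosed K] (hΔ : W.Δ ≠ 0) (x : K) :
    ∃ P : W.Point, P ≠ 0 ∧ xC W P = x := by
  obtain ⟨y, heq⟩ := exists_equation W x
  have hns : W.Nonsingular x y := (W.equation_iff_nonsingular_of_Δ_ne_zero hΔ).mp heq
  exact ⟨Point.some x y hns, Point.some_ne_zero hns, rfl⟩

/-- If `n • P = Q ≠ 0` then `x(P)` is a root of the fibre polynomial over `x(Q)`. -/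
theorem eval_fibPoly_xC_of_smul {n : ℕ} {P Q : W.Point} (hQ : Q ≠ 0) (h : n • P = Q) :
    (fibPoly W n (xC W Q)).eval (xC W P) = 0 := by
  rcases P with _ | ⟨x, y, hxy⟩
  · exact absurd (by rw [← h]; exact smul_zero n) hQ
  rcases Q with _ | ⟨u, v, huv⟩
  · exact absurd rfl hQ
  have h' : (n : ℤ) • Point.some x y hxy = Point.some u v huv := by
    rw [natCast_zsmul]; exact h
  have := AddSub.x_smul_mul_eval_ΨSq W (addSubIdentities_of_star W) hxy (n : ℤ) h'
  rw [eval_fibPoly, xC_some, xC_some, this, sub_self]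

/-- If `x(P)` is a root of the fibre polynomial over `x(Q)`, `Q ≠ 0`, then `n • P = ± Q`. -/
theorem smul_eq_or_of_eval_fibPoly [IsAlgClosed K] (hΔ : W.Δ ≠ 0) {n : ℕ} {P Q : W.Point}
    (hP : P ≠ 0) (hQ : Q ≠ 0) (h : (fibPoly W n (xC W Q)).eval (xC W P) = 0) :
    n • P = Q ∨ n • P = -Q := by
  rcases P with _ | ⟨x, y, hxy⟩
  · exact absurd rfl hP
  rw [eval_fibPoly, xC_some] at h
  have hΨ : (W.ΨSq (n : ℤ)).eval x ≠ 0 := by
    intro hΨ
    rw [hΨ, mul_zero, sub_zero] at h
    exact eval_Φ_ne_zero_of_eval_ΨSq W hΔ (n : ℤ) x hΨ h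
  have hne : (n : ℤ) • Point.some x y hxy ≠ 0 := fun h0 =>
    hΨ ((AddSub.eval_ΨSq_eq_zero_iff W (addSubIdentities_of_star W) hxy (n : ℤ)).mpr h0)
  rw [natCast_zsmul] at hne
  rcases hR : n • Point.some x y hxy with _ | ⟨x', y', hxy'⟩
  · exact absurd hR hne
  have h' : (n : ℤ) • Point.some x y hxy = Point.some x' y' hxy' := by
    rw [natCast_zsmul]; exact hR
  have e := AddSub.x_smul_mul_eval_ΨSq W (addSubIdentities_of_star W) hxy (n : ℤ) h'
  have hx' : x' = xC W Q := by
    have : (x' - xC W Q) * (W.ΨSq (n : ℤ)).eval x = 0 := by linear_combination e + h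
    rcases mul_eq_zero.mp this with h1 | h1
    · exact sub_eq_zero.mp h1
    · exact absurd h1 hΨ
  exact eq_or_eq_neg_of_xC_eq W hQ (Point.some_ne_zero hxy') (by rw [xC_some, hx'])

/-- **The generic fibre has `n ^ 2` points.** -/
theorem card_fibre [IsAlgClosed K] (hΔ : W.Δ ≠ 0) {n : ℕ} (hn : (n : K) ≠ 0) {Q : W.Point}
    (hQ : Q ≠ 0) (hQ2 : Q ≠ -Q) (hu : xC W Q ∉ badSet W n) :
    Nat.card {P : W.Point // n • P = Q} = n ^ 2 := by
  have hn0 : 0 < n := Nat.pos_of_ne_zero (by rintro rfl; simp at hn)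
  set f := fibPoly W n (xC W Q) with hf
  have hf0 : f ≠ 0 := fibPoly_ne_zero W hn0 _
  have hsep : f.Separable :=
    separable_fibPoly W hn (fun x => eval_Φ_ne_zero_of_eval_ΨSq W hΔ (n : ℤ) x) hu
  have hmem : ∀ P : {P : W.Point // n • P = Q}, xC W P.1 ∈ f.rootSet K := by
    intro P
    rw [mem_rootSet, coe_aeval_eq_eval]
    exact ⟨hf0, eval_fibPoly_xC_of_smul W hQ P.2⟩
  let g : {P : W.Point // n • P = Q} → f.rootSet K := fun P => ⟨xC W P.1, hmem P⟩
  have hPne : ∀ P : {P : W.Point // n • P = Q}, P.1 ≠ 0 := by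
    intro P h0
    apply hQ
    rw [← P.2, h0, smul_zero]
  have hinj : Function.Injective g := by
    intro P P' hPP'
    have hx : xC W P'.1 = xC W P.1 := (congrArg Subtype.val hPP').symm
    rcases eq_or_eq_neg_of_xC_eq W (hPne P) (hPne P') hx with h | h
    · exact Subtype.ext h.symm
    · exfalso
      apply hQ2
      calc Q = n • P'.1 := P'.2.symm
        _ = n • (-P.1) := by rw [h]
        _ = -(n • P.1) := smul_neg _ _
        _ = -Q := by rw [P.2]
  have hsurj : Function.Surjective g := by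
    rintro ⟨x, hx⟩
    rw [mem_rootSet, coe_aeval_eq_eval] at hx
    obtain ⟨P, hP0, hPx⟩ := exists_point_xC W hΔ x
    have hx' : (fibPoly W n (xC W Q)).eval (xC W P) = 0 := by rw [hPx]; exact hx.2
    rcases smul_eq_or_of_eval_fibPoly W hΔ hP0 hQ hx' with h | h
    · exact ⟨⟨P, h⟩, Subtype.ext hPx⟩
    · refine ⟨⟨-P, by rw [smul_neg, h, neg_neg]⟩, Subtype.ext ?_⟩
      show xC W (-P) = x
      rw [xC_neg, hPx]
  rw [Nat.card_congr (Equiv.ofBijective g ⟨hinj, hsurj⟩), Nat.card_eq_fintype_card,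
    card_rootSet_eq_natDegree hsep (IsAlgClosed.splits _), natDegree_fibPoly W hn0]

end Fermat.Agent.EC.Tor.Card
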