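import Mathlib
import Fermat.Agent.EC.Tor.Card

/-!
# Program E (S58), node (TOR), part 3: the torsion of an elliptic curve over an algebraically closed field

`K` algebraically closed, `W.Δ ≠ 0`:

* `nsmul_surjective` : `[n]` is surjective on `W.Point` for `0 < n` (any characteristic);
* `card_torsion` : `Nat.card (torsionBy ℤ W.Point n) = n ^ 2` for `(n : K) ≠ 0`;
* `exists_addOrderOf_eq_prime_pow` : points of exact order `l ^ k` for a prime `l` invertible in `K`;
* `card_le_of_exponent` : a finite subgroup killed by `n` has at most `n ^ 2` elements.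
-/

set_option autoImplicit false

namespace Fermat.Agent.EC.Tor.Main

open Polynomial WeierstrassCurve WeierstrassCurve.Affine WeierstrassCurve.Affine.Point
open Fermat.Agent.S13 Fermat.Agent.EC.Tor.Poly Fermat.Agent.EC.Tor.Card

variable {K : Type*} [Field K] [DecidableEq K] [IsAlgClosed K] (W : Affine K)

omit [DecidableEq K] [IsAlgClosed K] in
/-- `Ψ₂Sq ≠ 0` for an elliptic curve (any characteristic). -/
theorem Ψ₂Sq_ne_zero_of_Δ (hΔ : W.Δ ≠ 0) : W.Ψ₂Sq ≠ 0 := by
  intro h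
  have c3 : (4 : K) = 0 := by
    have := congrArg (fun p : K[X] => p.coeff 3) h
    simpa [WeierstrassCurve.Ψ₂Sq, coeff_X_pow, coeff_X, coeff_C] using this
  have c2 : W.b₂ = 0 := by
    have := congrArg (fun p : K[X] => p.coeff 2) h
    simpa [WeierstrassCurve.Ψ₂Sq, coeff_X_pow, coeff_X, coeff_C] using this
  have c0 : W.b₆ = 0 := by
    have := congrArg (fun p : K[X] => p.coeff 0) h
    simpa [WeierstrassCurve.Ψ₂Sq, coeff_X_pow, coeff_X, coeff_C] using this
  apply hΔ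
  rw [WeierstrassCurve.Δ, c2, c0]
  have c8 : (8 : K) = 0 := by linear_combination 2 * c3
  linear_combination (-W.b₄ ^ 3) * c8

/-- A point `Q ≠ 0` with `Q ≠ -Q` and `x(Q)` outside a given finite set. -/
theorem exists_good_point (hΔ : W.Δ ≠ 0) (S : Finset K) :
    ∃ Q : W.Point, Q ≠ 0 ∧ Q ≠ -Q ∧ xC W Q ∉ S := by
  classical
  have hinf : Infinite K := IsAlgClosed.instInfinite
  obtain ⟨u, hu⟩ := Infinite.exists_notMem_finset (S ∪ W.Ψ₂Sq.roots.toFinset)
  rw [Finset.mem_union, not_or, Multiset.mem_toFinset, mem_roots (Ψ₂Sq_ne_zero_of_Δ W hΔ)] at hu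
  obtain ⟨Q, hQ0, hQx⟩ := exists_point_xC W hΔ u
  refine ⟨Q, hQ0, ?_, by rw [hQx]; exact hu.1⟩
  intro hneg
  rcases Q with _ | ⟨x, y, hxy⟩
  · exact hQ0 rfl
  have h2 : (2 : ℤ) • Point.some x y hxy = 0 := by
    rw [two_zsmul]
    nth_rewrite 2 [hneg]
    exact add_neg_cancel _
  have := (AddSub.eval_ΨSq_eq_zero_iff W (addSubIdentities_of_star W) hxy 2).mpr h2
  rw [ΨSq_two] at this
  apply hu.2
  rw [IsRoot.def, ← hQx]
  exact this

/-- `[n]` is surjective (any characteristic). -/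
theorem nsmul_surjective (hΔ : W.Δ ≠ 0) {n : ℕ} (hn : 0 < n) :
    Function.Surjective fun P : W.Point => n • P := by
  intro Q
  by_cases hQ : Q = 0
  · exact ⟨0, by rw [hQ]; exact smul_zero n⟩
  have hdeg : (fibPoly W n (xC W Q)).degree ≠ 0 := by
    rw [degree_eq_natDegree (fibPoly_ne_zero W hn _), natDegree_fibPoly W hn]
    exact_mod_cast (Nat.pow_pos hn).ne'
  obtain ⟨x, hx⟩ := IsAlgClosed.exists_root _ hdeg
  obtain ⟨P, hP0, hPx⟩ := exists_point_xC W hΔ x
  have hx' : (fibPoly W n (xC W Q)).eval (xC W P) = 0 := by rw [hPx]; exact hx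
  rcases smul_eq_or_of_eval_fibPoly W hΔ hP0 hQ hx' with h | h
  · exact ⟨P, h⟩
  · exact ⟨-P, by show n • (-P) = Q; rw [smul_neg, h, neg_neg]⟩

/-- **`#E[n] = n ^ 2`** over an algebraically closed field in which `n` is invertible. -/
theorem card_torsion (hΔ : W.Δ ≠ 0) {n : ℕ} (hn : (n : K) ≠ 0) :
    Nat.card (Submodule.torsionBy ℤ W.Point (n : ℤ)) = n ^ 2 := by
  classical
  have hn0 : 0 < n := Nat.pos_of_ne_zero (by rintro rfl; simp at hn)
  obtain ⟨Q, hQ0, hQ2, hQu⟩ := exists_good_point W hΔ (badSet W n)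
  obtain ⟨P₀, hP₀⟩ := nsmul_surjective W hΔ hn0 Q
  have hP₀ : n • P₀ = Q := hP₀
  rw [← card_fibre W hΔ hn hQ0 hQ2 hQu]
  refine Nat.card_congr
    { toFun := fun T => ⟨T.1 + P₀, ?_⟩
      invFun := fun P => ⟨P.1 - P₀, ?_⟩
      left_inv := fun T => Subtype.ext (add_sub_cancel_right _ _)
      right_inv := fun P => Subtype.ext (sub_add_cancel _ _) }
  · have hT := T.2
    rw [Submodule.mem_torsionBy_iff, natCast_zsmul] at hT
    rw [smul_add, hT, zero_add, hP₀]
  · rw [Submodule.mem_torsionBy_iff, natCast_zsmul, smul_sub, P.2, hP₀, sub_self]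

/-- The `n`-torsion is finite. -/
theorem finite_torsion (hΔ : W.Δ ≠ 0) {n : ℕ} (hn : (n : K) ≠ 0) :
    Finite (Submodule.torsionBy ℤ W.Point (n : ℤ)) := by
  have hn0 : 0 < n := Nat.pos_of_ne_zero (by rintro rfl; simp at hn)
  exact Nat.finite_of_card_ne_zero (by rw [card_torsion W hΔ hn]; exact (Nat.pow_pos hn0).ne')

/-- Points of exact order `l ^ k`. -/
theorem exists_addOrderOf_eq_prime_pow (hΔ : W.Δ ≠ 0) {l : ℕ} (hl : l.Prime) (hlK : (l : K) ≠ 0)
    (k : ℕ) : ∃ P : W.Point, addOrderOf P = l ^ k := by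
  rcases k with _ | k
  · exact ⟨0, by simp⟩
  have h1 : ((l ^ (k + 1) : ℕ) : K) ≠ 0 := by push_cast; exact pow_ne_zero _ hlK
  have h0 : ((l ^ k : ℕ) : K) ≠ 0 := by push_cast; exact pow_ne_zero _ hlK
  have c1 := card_torsion W hΔ h1
  have c0 := card_torsion W hΔ h0
  have hfin := finite_torsion W hΔ h1
  by_contra hcon
  push Not at hcon
  -- every `l ^ (k+1)`-torsion point is `l ^ k`-torsion
  have hsub : ∀ T : Submodule.torsionBy ℤ W.Point ((l ^ (k + 1) : ℕ) : ℤ),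
      T.1 ∈ Submodule.torsionBy ℤ W.Point ((l ^ k : ℕ) : ℤ) := by
    intro T
    have hT := T.2
    rw [Submodule.mem_torsionBy_iff, natCast_zsmul] at hT ⊢
    by_contra hne
    exact hcon T.1 (addOrderOf_eq_prime_pow (p := l) (hp := ⟨hl⟩) hne hT)
  have hle : Nat.card (Submodule.torsionBy ℤ W.Point ((l ^ (k + 1) : ℕ) : ℤ)) ≤
      Nat.card (Submodule.torsionBy ℤ W.Point ((l ^ k : ℕ) : ℤ)) := by
    have := finite_torsion W hΔ h0
    exact Nat.card_le_card_of_injective (fun T => ⟨T.1, hsub T⟩)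
      (fun T T' h => Subtype.ext (Subtype.mk.inj h))
  rw [c1, c0] at hle
  have : (l ^ k) ^ 2 < (l ^ (k + 1)) ^ 2 :=
    Nat.pow_lt_pow_left (Nat.pow_lt_pow_right hl.one_lt (Nat.lt_succ_self k)) two_ne_zero
  omega

/-- A finite subgroup killed by `n` has at most `n ^ 2` elements. -/
theorem card_le_of_forall_nsmul (hΔ : W.Δ ≠ 0) {n : ℕ} (hn : (n : K) ≠ 0)
    (G : AddSubgroup W.Point) (hG : ∀ P ∈ G, n • P = 0) : Nat.card G ≤ n ^ 2 := by
  rw [← card_torsion W hΔ hn]
  have := finite_torsion W hΔ hn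
  refine Nat.card_le_card_of_injective (fun P => ⟨P.1, ?_⟩)
    (fun P P' h => Subtype.ext (Subtype.mk.inj h))
  rw [Submodule.mem_torsionBy_iff, natCast_zsmul]
  exact hG P.1 P.2

end Fermat.Agent.EC.Tor.Main
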